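import Mathlib

/-!
# S37 / RIM-NORMAL — chart change (helper999), Mathlib-only

Abstract setting: `A`-algebras `O` and `K` and an `A`-algebra homomorphism `ρ : O →ₐ[A] K`
(in the application: `A` a valuation subring of `ℚ̄`, `O` the ring of `A`-integral `q`-series lying
in `F_M` with reduction in `F_{M,k}`, `K = F_{M,k}`, `ρ` the coefficientwise reduction).

`CNorm ρ u` : every `z : K` integral over `A[ρ u]` is the reduction of some `b : O` integral over
`A[u]` ("the reduction of the chart of `u` is the normalisation of the chart of `ρ u`").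

Results (general part, this file):
* `isIntegral_of_forall_isIntegral`  : transitivity of integrality between subalgebras;
* `exists_pow_mul_isIntegral`        : if `u * u' = 1` and `b` is integral over `A[u, u']`
                                        then `u ^ m * b` is integral over `A[u]` for `m ≫ 0`.

`ChartChangeNorm.lean`:
* `CNorm.of_isIntegral`              : `v` integral over `A[u]`, `ρ u` integral over `A[ρ v]`,
                                        `CNorm ρ v` ⟹ `CNorm ρ u`;
* `CNorm.of_localization`            : `t * t' = 1`, `t, t'` integral over `A[x]`,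
                                        `x ∈ A[t, t']`, `CNorm ρ t` ⟹ `CNorm ρ x`;
* `CNorm.of_cover`                   : `s * s' = 1`, `e * e' = 1`, `a • s + e = 1`, `a` a unit,
                                        `CNorm ρ s'`, `CNorm ρ e'` ⟹ `CNorm ρ s`.

`ChartChangeHaupt.lean`: `norm_j_and_jinv_of_t2` (`ℓ = 3`), `norm_j_and_jinv_of_t3` (`ℓ = 2`).
-/

set_option autoImplicit false

namespace Fermat.Agent.S37.H999.CC

open Polynomial

section General

variable {A R : Type*} [CommRing A] [CommRing R] [Algebra A R]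

/-- Integrality over a subalgebra, in terms of polynomials over the big ring. -/
theorem isIntegral_subalgebra_iff (S : Subalgebra A R) (z : R) :
    IsIntegral S z ↔ ∃ q : R[X], q.Monic ∧ (∀ i, q.coeff i ∈ S) ∧ q.eval z = 0 := by
  constructor
  · rintro ⟨p, hp, hz⟩
    refine ⟨p.map (algebraMap S R), hp.map _, fun i => ?_, ?_⟩
    · rw [coeff_map]
      exact (p.coeff i).2
    · rw [eval_map]
      exact hz
  · rintro ⟨q, hq, hcoeff, hz⟩
    have hl : q ∈ Polynomial.lifts (algebraMap S R) := by
      rw [Polynomial.lifts_iff_coeff_lifts]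
      intro i
      exact ⟨⟨q.coeff i, hcoeff i⟩, rfl⟩
    obtain ⟨p, hpq, -, hp⟩ := Polynomial.lifts_and_natDegree_eq_and_monic hl hq
    refine ⟨p, hp, ?_⟩
    rw [← eval_map, hpq]
    exact hz

/-- monotonicity of integrality in the base subalgebra -/
theorem isIntegral_mono {S₁ S₂ : Subalgebra A R} (h : S₁ ≤ S₂) {z : R} (hz : IsIntegral S₁ z) :
    IsIntegral S₂ z := by
  rw [isIntegral_subalgebra_iff] at hz ⊢
  obtain ⟨q, hq, hcoeff, hz⟩ := hz
  exact ⟨q, hq, fun i => h (hcoeff i), hz⟩

/-- elements of a subalgebra are integral over it -/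
theorem isIntegral_of_mem (S : Subalgebra A R) {z : R} (hz : z ∈ S) : IsIntegral S z := by
  have := isIntegral_algebraMap (R := S) (A := R) (x := ⟨z, hz⟩)
  exact this

/-- transitivity of integrality between two subalgebras of the same ring -/
theorem isIntegral_of_forall_isIntegral (S₁ S₂ : Subalgebra A R)
    (h : ∀ x ∈ S₁, IsIntegral S₂ x) {z : R} (hz : IsIntegral S₁ z) : IsIntegral S₂ z := by
  obtain ⟨p, hp, hpz⟩ := hz
  let ι : S₁ →+* integralClosure S₂ R :=
    { toFun := fun x => ⟨(x : R), h x x.2⟩
      map_one' := rfl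
      map_mul' := fun _ _ => rfl
      map_zero' := rfl
      map_add' := fun _ _ => rfl }
  have hC : IsIntegral (integralClosure S₂ R) z := by
    refine ⟨p.map ι, hp.map _, ?_⟩
    rw [eval₂_map]
    exact hpz
  exact isIntegral_trans (R := S₂) (A := integralClosure S₂ R) z hC

/-- if `u` is integral over `S` then so is every element of `A[u]` -/
theorem isIntegral_of_mem_adjoin_singleton (S : Subalgebra A R) {u : R} (hu : IsIntegral S u)
    {x : R} (hx : x ∈ Algebra.adjoin A {u}) : IsIntegral S x := by
  induction hx using Algebra.adjoin_induction with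
  | mem y hy =>
    rw [Set.mem_singleton_iff] at hy
    rw [hy]
    exact hu
  | algebraMap a =>
    have : algebraMap A R a = algebraMap S R (algebraMap A S a) := rfl
    rw [this]
    exact isIntegral_algebraMap
  | add x y _ _ hx hy => exact hx.add hy
  | mul x y _ _ hx hy => exact hx.mul hy

/-- if `u, v` are integral over `S` then so is every element of `A[u, v]` -/
theorem isIntegral_of_mem_adjoin_pair (S : Subalgebra A R) {u v : R} (hu : IsIntegral S u)
    (hv : IsIntegral S v) {x : R} (hx : x ∈ Algebra.adjoin A {u, v}) : IsIntegral S x := by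
  induction hx using Algebra.adjoin_induction with
  | mem y hy =>
    rcases hy with rfl | hy
    · exact hu
    · rw [Set.mem_singleton_iff] at hy
      rw [hy]
      exact hv
  | algebraMap a =>
    have : algebraMap A R a = algebraMap S R (algebraMap A S a) := rfl
    rw [this]
    exact isIntegral_algebraMap
  | add x y _ _ hx hy => exact hx.add hy
  | mul x y _ _ hx hy => exact hx.mul hy

/-- integral over `A[u]`, `u` integral over `S` ⟹ integral over `S` -/
theorem isIntegral_trans_adjoin (S : Subalgebra A R) {u : R} (hu : IsIntegral S u) {z : R}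
    (hz : IsIntegral (Algebra.adjoin A {u}) z) : IsIntegral S z :=
  isIntegral_of_forall_isIntegral _ S (fun _ hx => isIntegral_of_mem_adjoin_singleton S hu hx) hz

/-- denominators: if `u * u' = 1` then every element of `A[u, u']` becomes an element of `A[u]`
after multiplication by a high power of `u`. -/
theorem exists_pow_mul_mem_adjoin {u u' : R} (h : u * u' = 1) {x : R}
    (hx : x ∈ Algebra.adjoin A {u, u'}) :
    ∃ D : ℕ, ∀ D' : ℕ, D ≤ D' → u ^ D' * x ∈ Algebra.adjoin A {u} := by
  have hu : u ∈ Algebra.adjoin A {u} := Algebra.subset_adjoin (Set.mem_singleton u)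
  induction hx using Algebra.adjoin_induction with
  | mem y hy =>
    rcases hy with rfl | hy
    · exact ⟨0, fun D' _ => Subalgebra.mul_mem _ (Subalgebra.pow_mem _ hu D') hu⟩
    · rw [Set.mem_singleton_iff] at hy
      subst hy
      refine ⟨1, fun D' hD' => ?_⟩
      obtain ⟨E, rfl⟩ : ∃ E, D' = E + 1 := ⟨D' - 1, by omega⟩
      rw [pow_succ, mul_assoc, h, mul_one]
      exact Subalgebra.pow_mem _ hu E
  | algebraMap a =>
    exact ⟨0, fun D' _ => Subalgebra.mul_mem _ (Subalgebra.pow_mem _ hu D')
      (Subalgebra.algebraMap_mem _ a)⟩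
  | add x y _ _ hx hy =>
    obtain ⟨D₁, h₁⟩ := hx
    obtain ⟨D₂, h₂⟩ := hy
    refine ⟨max D₁ D₂, fun D' hD' => ?_⟩
    rw [mul_add]
    exact Subalgebra.add_mem _ (h₁ D' (le_trans (le_max_left _ _) hD'))
      (h₂ D' (le_trans (le_max_right _ _) hD'))
  | mul x y _ _ hx hy =>
    obtain ⟨D₁, h₁⟩ := hx
    obtain ⟨D₂, h₂⟩ := hy
    refine ⟨D₁ + D₂, fun D' hD' => ?_⟩
    obtain ⟨E, rfl⟩ : ∃ E, D' = D₁ + E := ⟨D' - D₁, by omega⟩
    have hE : D₂ ≤ E := by omega
    have : u ^ (D₁ + E) * (x * y) = (u ^ D₁ * x) * (u ^ E * y) := by ring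
    rw [this]
    exact Subalgebra.mul_mem _ (h₁ D₁ le_rfl) (h₂ E hE)

/-- **Killing poles.**  If `u * u' = 1` and `b` is integral over `A[u, u']`, then `u ^ m * b` is
integral over `A[u]` for all large `m`. -/
theorem exists_pow_mul_isIntegral {u u' : R} (h : u * u' = 1) {b : R}
    (hb : IsIntegral (Algebra.adjoin A {u, u'}) b) :
    ∃ m : ℕ, ∀ m' : ℕ, m ≤ m' → IsIntegral (Algebra.adjoin A {u}) (u ^ m' * b) := by
  rw [isIntegral_subalgebra_iff] at hb
  obtain ⟨q, hq, hcoeff, hqb⟩ := hb
  -- a uniform denominator for the coefficients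
  have hD : ∃ D : ℕ, ∀ i : ℕ, ∀ D' : ℕ, D ≤ D' → u ^ D' * q.coeff i ∈ Algebra.adjoin A {u} := by
    choose Df hDf using fun i => exists_pow_mul_mem_adjoin (A := A) h (hcoeff i)
    refine ⟨(Finset.range (q.natDegree + 1)).sup Df, fun i D' hD' => ?_⟩
    by_cases hi : i ≤ q.natDegree
    · refine hDf i D' (le_trans ?_ hD')
      exact Finset.le_sup (f := Df) (Finset.mem_range.mpr (by omega))
    · rw [coeff_eq_zero_of_natDegree_lt (by omega), mul_zero]
      exact Subalgebra.zero_mem _
  obtain ⟨D, hD⟩ := hD
  refine ⟨D, fun m' hm' => ?_⟩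
  rw [isIntegral_subalgebra_iff]
  refine ⟨scaleRoots q (u ^ m'), (monic_scaleRoots_iff _).mpr hq, fun i => ?_, ?_⟩
  · rw [coeff_scaleRoots]
    by_cases hi : i < q.natDegree
    · obtain ⟨E, hE⟩ : ∃ E, q.natDegree - i = E + 1 := ⟨q.natDegree - i - 1, by omega⟩
      rw [hE, ← pow_mul, mul_comm]
      refine hD i _ ?_
      calc D ≤ m' := hm'
        _ ≤ m' * (E + 1) := Nat.le_mul_of_pos_right _ (by omega)
    · by_cases hi' : i = q.natDegree
      · subst hi'
        rw [Nat.sub_self, pow_zero, mul_one, hq.coeff_natDegree]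
        exact Subalgebra.one_mem _
      · rw [coeff_eq_zero_of_natDegree_lt (by omega), zero_mul]
        exact Subalgebra.zero_mem _
  · have := scaleRoots_eval₂_mul (f := RingHom.id R) (p := q) (r := b) (s := u ^ m')
    simp only [RingHom.id_apply, eval₂_id] at this
    rw [this, hqb, mul_zero]

end General

end Fermat.Agent.S37.H999.CC
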