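import Fermat.Agent.S37.H999.ChartChangeHaupt

/-!
# S37 / A2 — chart change: bridge to the `eval₂` form of integrality (helper999), Mathlib-only

`IntOver φ y f` : `f : T` is a root of a monic polynomial with coefficients in `R[y]`
(`φ : R →+* T` the constants).  This is the shape of `A2.Mod.chart`, `Core.IntElt.IsFin`,
`H448.evalSer … .IsIntegralElem`, `H508.IntOverS`.

* `isIntegral_adjoin_iff_intOver` : for an `R`-algebra `S` with an injective ring hom `ι : S →+* T`
  compatible with the constants, `IsIntegral (Algebra.adjoin R {u}) b ↔ IntOver φ (ι u) (ι b)`.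
-/

set_option autoImplicit false

namespace Fermat.Agent.S37.H999.CC

open Polynomial

section Bridge

variable {R S T : Type*} [CommRing R] [CommRing S] [CommRing T] [Algebra R S]

/-- `f` is integral over `R[y]` inside `T` (`eval₂` form). -/
def IntOver (φ : R →+* T) (y f : T) : Prop :=
  ∃ p : Polynomial (Polynomial R), p.Monic ∧ p.eval₂ (Polynomial.eval₂RingHom φ y) f = 0

theorem intOver_iff_isIntegralElem (φ : R →+* T) (y f : T) :
    IntOver φ y f ↔ (Polynomial.eval₂RingHom φ y).IsIntegralElem f := Iff.rfl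

/-- the evaluation `R[X] → S`, `X ↦ u`, composed with `ι`, is the evaluation `X ↦ ι u` -/
theorem comp_aeval_eq (φ : R →+* T) (ι : S →+* T) (hι : ∀ r, ι (algebraMap R S r) = φ r) (u : S) :
    ι.comp ((Polynomial.aeval u : R[X] →ₐ[R] S) : R[X] →+* S) =
      Polynomial.eval₂RingHom φ (ι u) := by
  apply Polynomial.ringHom_ext
  · intro r
    simp [hι]
  · simp

/-- **Bridge.** -/
theorem isIntegral_adjoin_iff_intOver (φ : R →+* T) (ι : S →+* T) (hinj : Function.Injective ι)
    (hι : ∀ r, ι (algebraMap R S r) = φ r) (u b : S) :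
    IsIntegral (Algebra.adjoin R {u}) b ↔ IntOver φ (ι u) (ι b) := by
  set ψ : R[X] →+* S := ((Polynomial.aeval u : R[X] →ₐ[R] S) : R[X] →+* S) with hψ
  have hcomp := comp_aeval_eq φ ι hι u
  constructor
  · intro h
    rw [isIntegral_subalgebra_iff] at h
    obtain ⟨q, hq, hcoeff, hqb⟩ := h
    have hl : q ∈ Polynomial.lifts ψ := by
      rw [Polynomial.lifts_iff_coeff_lifts]
      intro n
      have := hcoeff n
      rw [Algebra.adjoin_singleton_eq_range_aeval] at this
      obtain ⟨a, ha⟩ := this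
      exact ⟨a, ha⟩
    obtain ⟨P, hP, -, hPm⟩ := Polynomial.lifts_and_natDegree_eq_and_monic hl hq
    refine ⟨P, hPm, ?_⟩
    rw [← hcomp, ← Polynomial.hom_eval₂, ← Polynomial.eval_map, hP, hqb, map_zero]
  · rintro ⟨P, hPm, hP⟩
    rw [← hcomp, ← Polynomial.hom_eval₂] at hP
    have h0 : P.eval₂ ψ b = 0 := hinj (by rw [hP, map_zero])
    rw [isIntegral_subalgebra_iff]
    refine ⟨P.map ψ, hPm.map ψ, fun i => ?_, ?_⟩
    · rw [Polynomial.coeff_map, Algebra.adjoin_singleton_eq_range_aeval]
      exact ⟨P.coeff i, rfl⟩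
    · rw [Polynomial.eval_map, h0]

end Bridge

end Fermat.Agent.S37.H999.CC
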