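import Fermat.Agent.S37.H999.ChartChangeNorm

/-!
# S37 / RIM-NORMAL — chart change for `ℓ = 3` (`t = t₂`) and `ℓ = 2` (`t = t₃`) (helper999)

Mathlib-only.  Setting as in `ChartChange.lean`: `A`-algebras `O`, `K`, `ρ : O →ₐ[A] K`, and
`CNorm ρ u` : every `z : K` integral over `A[ρ u]` is `ρ b` for some `b : O` integral over `A[u]`.

* `norm_j_of_t2` : `2 ∈ Aˣ`, `j t² = (t + 256)³`, `t t' = 1`:
    `CNorm ρ t → CNorm ρ j`;
* `norm_jinv_of_t2` : moreover `j j' = 1`, `(t + 256) s = 1`: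
    `CNorm ρ t → CNorm ρ t' → CNorm ρ j'`;
* `norm_j_of_t3` : `3 ∈ Aˣ`, `j t³ = (t + 27)(t + 243)³`, `t t' = 1`:
    `CNorm ρ t → CNorm ρ j`;
* `norm_jinv_of_t3` : moreover `j j' = 1`, `(t + 27) y = 1` and `2 = 0` in `K`:
    `CNorm ρ t → CNorm ρ t' → CNorm ρ j'`.

So normality of the special fibre in the two charts `t ≠ ∞`, `t ≠ 0` of the Hauptmodul implies
normality in the two charts `j ≠ ∞`, `j ≠ 0`.
-/

set_option autoImplicit false

namespace Fermat.Agent.S37.H999.CC

open Polynomial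

section Small

variable {A R : Type*} [CommRing A] [CommRing R] [Algebra A R]

/-- a root of a monic cubic with coefficients in `S` is integral over `S` -/
theorem isIntegral_of_cubic (S : Subalgebra A R) {z a b c : R} (ha : a ∈ S) (hb : b ∈ S)
    (hc : c ∈ S) (h : z ^ 3 + a * z ^ 2 + b * z + c = 0) : IsIntegral S z := by
  refine ⟨X ^ 3 + C ⟨a, ha⟩ * X ^ 2 + C ⟨b, hb⟩ * X + C ⟨c, hc⟩, by monicity!, ?_⟩
  simp only [eval₂_add, eval₂_mul, eval₂_pow, eval₂_X, eval₂_C]
  exact h

/-- a root of a monic quartic with coefficients in `S` is integral over `S` -/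
theorem isIntegral_of_quartic (S : Subalgebra A R) {z a b c d : R} (ha : a ∈ S) (hb : b ∈ S)
    (hc : c ∈ S) (hd : d ∈ S) (h : z ^ 4 + a * z ^ 3 + b * z ^ 2 + c * z + d = 0) :
    IsIntegral S z := by
  refine ⟨X ^ 4 + C ⟨a, ha⟩ * X ^ 3 + C ⟨b, hb⟩ * X ^ 2 + C ⟨c, hc⟩ * X + C ⟨d, hd⟩,
    by monicity!, ?_⟩
  simp only [eval₂_add, eval₂_mul, eval₂_pow, eval₂_X, eval₂_C]
  exact h

theorem self_mem_adjoin (u : R) : u ∈ Algebra.adjoin A {u} :=
  Algebra.subset_adjoin (Set.mem_singleton u)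

theorem ofNat_mem_adjoin (s : Set R) (n : ℕ) [n.AtLeastTwo] :
    (OfNat.ofNat n : R) ∈ Algebra.adjoin A s := by
  have : (OfNat.ofNat n : R) = algebraMap A R (OfNat.ofNat n) := (map_ofNat _ n).symm
  rw [this]
  exact Subalgebra.algebraMap_mem _ _

/-- `CNorm` is invariant under affine changes `u ↦ u + n` of the coordinate. -/
theorem add_ofNat_mem (u : R) (n : ℕ) [n.AtLeastTwo] :
    u + OfNat.ofNat n ∈ Algebra.adjoin A {u} :=
  Subalgebra.add_mem _ (self_mem_adjoin u) (ofNat_mem_adjoin _ n)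

theorem mem_adjoin_add_ofNat (u : R) (n : ℕ) [n.AtLeastTwo] :
    u ∈ Algebra.adjoin A {u + OfNat.ofNat n} := by
  have : u = (u + OfNat.ofNat n) - OfNat.ofNat n := by ring
  rw [this]
  exact Subalgebra.sub_mem _ (by rw [← this]; exact self_mem_adjoin _) (ofNat_mem_adjoin _ n)

end Small

variable {A O K : Type*} [CommRing A] [CommRing O] [CommRing K] [Algebra A O] [Algebra A K]
variable {ρ : O →ₐ[A] K}

/-- `CNorm ρ u → CNorm ρ (u + n)` -/
theorem CNorm.add_ofNat {u : O} (n : ℕ) [n.AtLeastTwo] (h : CNorm ρ u) :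
    CNorm ρ (u + OfNat.ofNat n) :=
  h.of_mem_adjoin (mem_adjoin_add_ofNat u n) (add_ofNat_mem u n)

/-- `CNorm ρ u → CNorm ρ (1 + n u)` for `n` a unit of `A` -/
theorem CNorm.one_add_mul {u : O} (a a' : A) (haa : a * a' = 1) (h : CNorm ρ u) :
    CNorm ρ (1 + algebraMap A O a * u) := by
  refine h.of_mem_adjoin ?_ ?_
  · have : u = algebraMap A O a' * ((1 + algebraMap A O a * u) - 1) := by
      have h1 : algebraMap A O a' * algebraMap A O a = 1 := by
        rw [← map_mul, mul_comm, haa, map_one]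
      calc u = (algebraMap A O a' * algebraMap A O a) * u := by rw [h1, one_mul]
        _ = _ := by ring
    rw [this]
    exact Subalgebra.mul_mem _ (Subalgebra.algebraMap_mem _ _)
      (Subalgebra.sub_mem _ (by rw [← this]; exact self_mem_adjoin _) (Subalgebra.one_mem _))
  · exact Subalgebra.add_mem _ (Subalgebra.one_mem _)
      (Subalgebra.mul_mem _ (Subalgebra.algebraMap_mem _ _) (self_mem_adjoin u))

/-! ## `ℓ = 3` : the Hauptmodul `t₂` of `Γ₀(2)` -/

section T2

variable {c : A} {j j' t t' s : O}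

/-- **Chart change, finite chart, `t = t₂`.** -/
theorem norm_j_of_t2 (hc : 2 * c = 1) (ht : t * t' = 1)
    (hrel : j * t ^ 2 = (t + 256) ^ 3) (h : CNorm ρ t) : CNorm ρ j := by
  set d : O := algebraMap A O (c ^ 8) with hd
  have hd1 : 256 * d = 1 := by
    have h1 : (256 : A) * c ^ 8 = 1 := by
      have : (256 : A) * c ^ 8 = (2 * c) ^ 8 := by ring
      rw [this, hc, one_pow]
    have := congrArg (algebraMap A O) h1
    rwa [map_mul, map_ofNat, map_one] at this
  have hdm : ∀ s : Set O, d ∈ Algebra.adjoin A s := fun s => Subalgebra.algebraMap_mem _ _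
  have hj : j ∈ Algebra.adjoin A {j} := self_mem_adjoin j
  refine h.of_localization ht ?_ ?_ ?_
  · -- `t` is integral over `A[j]`
    refine isIntegral_of_cubic (a := 768 - j) (b := 196608) (c := 16777216) _
      (Subalgebra.sub_mem _ (ofNat_mem_adjoin _ _) hj) (ofNat_mem_adjoin _ _)
      (ofNat_mem_adjoin _ _) ?_
    linear_combination -hrel
  · -- `t'` is integral over `A[j]`
    have h1 : j * t' = (1 + 256 * t') ^ 3 := by
      have e1 : j * t' = (j * t ^ 2) * t' ^ 3 := by
        calc j * t' = j * t' * (t * t') ^ 2 := by rw [ht, one_pow, mul_one]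
          _ = _ := by ring
      rw [e1, hrel]
      calc (t + 256) ^ 3 * t' ^ 3 = (t * t' + 256 * t') ^ 3 := by ring
        _ = _ := by rw [ht]
    refine isIntegral_of_cubic (a := 3 * d) (b := 3 * d ^ 2 - d ^ 3 * j) (c := d ^ 3) _
      (Subalgebra.mul_mem _ (ofNat_mem_adjoin _ _) (hdm _))
      (Subalgebra.sub_mem _ (Subalgebra.mul_mem _ (ofNat_mem_adjoin _ _)
        (Subalgebra.pow_mem _ (hdm _) _)) (Subalgebra.mul_mem _ (Subalgebra.pow_mem _ (hdm _) _) hj))
      (Subalgebra.pow_mem _ (hdm _) _) ?_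
    have hd3 : 16777216 * d ^ 3 = 1 := by
      have : (16777216 : O) * d ^ 3 = (256 * d) ^ 3 := by ring
      rw [this, hd1, one_pow]
    have hd2 : 65536 * d ^ 2 = 1 := by
      have : (65536 : O) * d ^ 2 = (256 * d) ^ 2 := by ring
      rw [this, hd1, one_pow]
    linear_combination (-(d ^ 3)) * h1 + (-(t' ^ 3)) * hd3 + (-(3 * d * t' ^ 2)) * hd2
      + (-(3 * d ^ 2 * t')) * hd1
  · -- `j ∈ A[t, t']`
    have e : j = (t + 256) ^ 3 * t' ^ 2 := by
      calc j = j * (t * t') ^ 2 := by rw [ht, one_pow, mul_one]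
        _ = (j * t ^ 2) * t' ^ 2 := by ring
        _ = _ := by rw [hrel]
    rw [e]
    have h1 : t ∈ Algebra.adjoin A {t, t'} := Algebra.subset_adjoin (by simp)
    have h2 : t' ∈ Algebra.adjoin A {t, t'} := Algebra.subset_adjoin (by simp)
    exact Subalgebra.mul_mem _ (Subalgebra.pow_mem _
      (Subalgebra.add_mem _ h1 (ofNat_mem_adjoin _ _)) _) (Subalgebra.pow_mem _ h2 _)

/-- **Chart change, chart at infinity, `t = t₂`.** -/
theorem norm_jinv_of_t2 (hc : 2 * c = 1) (hj : j * j' = 1) (ht : t * t' = 1)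
    (hs : (t + 256) * s = 1) (hrel : j * t ^ 2 = (t + 256) ^ 3)
    (h : CNorm ρ t) (h' : CNorm ρ t') : CNorm ρ j' := by
  set d : O := algebraMap A O (c ^ 8) with hd
  have hc1 : (256 : A) * c ^ 8 = 1 := by
    have : (256 : A) * c ^ 8 = (2 * c) ^ 8 := by ring
    rw [this, hc, one_pow]
  have hd1 : 256 * d = 1 := by
    have := congrArg (algebraMap A O) hc1
    rwa [map_mul, map_ofNat, map_one] at this
  have hdm : ∀ s : Set O, d ∈ Algebra.adjoin A s := fun s => Subalgebra.algebraMap_mem _ _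
  -- `t s = 1 - 256 s`
  have hts : t * s = 1 - 256 * s := by linear_combination hs
  -- `j' = s (1 - 256 s)²`
  have hj' : j' = s * (1 - 256 * s) ^ 2 := by
    have e1 : j * (s * (1 - 256 * s) ^ 2) = 1 := by
      rw [← hts]
      calc j * (s * (t * s) ^ 2) = (j * t ^ 2) * s ^ 3 := by ring
        _ = ((t + 256) * s) ^ 3 := by rw [hrel]; ring
        _ = 1 := by rw [hs, one_pow]
    calc j' = j' * (j * (s * (1 - 256 * s) ^ 2)) := by rw [e1, mul_one]
      _ = (j * j') * (s * (1 - 256 * s) ^ 2) := by ring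
      _ = _ := by rw [hj, one_mul]
  -- `CNorm ρ s` by the two-chart cover
  have hNs : CNorm ρ s := by
    have e1 : (1 - 256 * s) * (1 + algebraMap A O 256 * t') = 1 := by
      rw [map_ofNat, ← hts]
      calc t * s * (1 + 256 * t') = (t * t') * ((t + 256) * s) := by
            have : t * s * (1 + 256 * t') = t * s + 256 * s * (t * t') := by ring
            rw [this, ht]; ring
        _ = 1 := by rw [ht, hs, one_mul]
    refine CNorm.of_cover (s := s) (s' := t + 256) (e := 1 - 256 * s)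
      (e' := 1 + algebraMap A O 256 * t') (256 : A) (c ^ 8) hc1 ?_ e1 ?_ (h.add_ofNat 256)
      (h'.one_add_mul (256 : A) (c ^ 8) hc1)
    · rw [mul_comm]; exact hs
    · rw [Algebra.smul_def, map_ofNat]; ring
  refine hNs.of_isIntegral ?_ ?_
  · -- `s` is integral over `A[j']`
    refine isIntegral_of_cubic (a := -(2 * d)) (b := d ^ 2) (c := -(d ^ 2 * j')) _
      (Subalgebra.neg_mem _ (Subalgebra.mul_mem _ (ofNat_mem_adjoin _ _) (hdm _)))
      (Subalgebra.pow_mem _ (hdm _) _)
      (Subalgebra.neg_mem _ (Subalgebra.mul_mem _ (Subalgebra.pow_mem _ (hdm _) _)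
        (self_mem_adjoin j'))) ?_
    have hd2 : 65536 * d ^ 2 = 1 := by
      have : (65536 : O) * d ^ 2 = (256 * d) ^ 2 := by ring
      rw [this, hd1, one_pow]
    linear_combination (-(d ^ 2)) * hj' + (-(s ^ 3)) * hd2 + (2 * d * s ^ 2) * hd1
  · -- `ρ j' ∈ A[ρ s]`
    refine isIntegral_of_mem _ ?_
    rw [hj', map_mul, map_pow, map_sub, map_one, map_mul, map_ofNat]
    exact Subalgebra.mul_mem _ (self_mem_adjoin _) (Subalgebra.pow_mem _
      (Subalgebra.sub_mem _ (Subalgebra.one_mem _)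
        (Subalgebra.mul_mem _ (ofNat_mem_adjoin _ _) (self_mem_adjoin _))) _)

end T2

/-! ## `ℓ = 2` : the Hauptmodul `t₃` of `Γ₀(3)` -/

section T3

variable {c : A} {j j' t t' y : O}

/-- **Chart change, finite chart, `t = t₃`.** -/
theorem norm_j_of_t3 (hc : 3 * c = 1) (ht : t * t' = 1)
    (hrel : j * t ^ 3 = (t + 27) * (t + 243) ^ 3) (h : CNorm ρ t) : CNorm ρ j := by
  set d : O := algebraMap A O (c ^ 18) with hd
  have hd1 : 387420489 * d = 1 := by
    have h1 : (387420489 : A) * c ^ 18 = 1 := by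
      have : (387420489 : A) * c ^ 18 = (3 * c) ^ 18 := by ring
      rw [this, hc, one_pow]
    have := congrArg (algebraMap A O) h1
    rwa [map_mul, map_ofNat, map_one] at this
  have hdm : ∀ s : Set O, d ∈ Algebra.adjoin A s := fun s => Subalgebra.algebraMap_mem _ _
  have hj : j ∈ Algebra.adjoin A {j} := self_mem_adjoin j
  refine h.of_localization ht ?_ ?_ ?_
  · -- `t` is integral over `A[j]`
    refine isIntegral_of_quartic (a := 756 - j) (b := 196830) (c := 19131876) (d := 387420489) _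
      (Subalgebra.sub_mem _ (ofNat_mem_adjoin _ _) hj) (ofNat_mem_adjoin _ _)
      (ofNat_mem_adjoin _ _) (ofNat_mem_adjoin _ _) ?_
    linear_combination -hrel
  · -- `t'` is integral over `A[j]`
    have h1 : j * t' = (1 + 27 * t') * (1 + 243 * t') ^ 3 := by
      have e1 : j * t' = (j * t ^ 3) * t' ^ 4 := by
        calc j * t' = j * t' * (t * t') ^ 3 := by rw [ht, one_pow, mul_one]
          _ = _ := by ring
      rw [e1, hrel]
      calc (t + 27) * (t + 243) ^ 3 * t' ^ 4
          = (t * t' + 27 * t') * (t * t' + 243 * t') ^ 3 := by ring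
        _ = _ := by rw [ht]
    refine isIntegral_of_quartic (a := 19131876 * d) (b := 196830 * d) (c := d * (756 - j))
      (d := d) _
      (Subalgebra.mul_mem _ (ofNat_mem_adjoin _ _) (hdm _))
      (Subalgebra.mul_mem _ (ofNat_mem_adjoin _ _) (hdm _))
      (Subalgebra.mul_mem _ (hdm _) (Subalgebra.sub_mem _ (ofNat_mem_adjoin _ _) hj))
      (hdm _) ?_
    linear_combination (-d) * h1 + (-(t' ^ 4)) * hd1
  · -- `j ∈ A[t, t']`
    have e : j = (t + 27) * (t + 243) ^ 3 * t' ^ 3 := by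
      calc j = j * (t * t') ^ 3 := by rw [ht, one_pow, mul_one]
        _ = (j * t ^ 3) * t' ^ 3 := by ring
        _ = _ := by rw [hrel]
    rw [e]
    have h1 : t ∈ Algebra.adjoin A {t, t'} := Algebra.subset_adjoin (by simp)
    have h2 : t' ∈ Algebra.adjoin A {t, t'} := Algebra.subset_adjoin (by simp)
    exact Subalgebra.mul_mem _ (Subalgebra.mul_mem _
      (Subalgebra.add_mem _ h1 (ofNat_mem_adjoin _ _))
      (Subalgebra.pow_mem _ (Subalgebra.add_mem _ h1 (ofNat_mem_adjoin _ _)) _))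
      (Subalgebra.pow_mem _ h2 _)

/-- **Chart change, chart at infinity, `t = t₃`** (the reduction has characteristic `2`). -/
theorem norm_jinv_of_t3 (hc : 3 * c = 1) (h2 : (2 : K) = 0) (hj : j * j' = 1) (ht : t * t' = 1)
    (hy : (t + 27) * y = 1) (hrel : j * t ^ 3 = (t + 27) * (t + 243) ^ 3)
    (h : CNorm ρ t) (h' : CNorm ρ t') : CNorm ρ j' := by
  set d : O := algebraMap A O (c ^ 9) with hd
  have hc3 : (27 : A) * c ^ 3 = 1 := by
    have : (27 : A) * c ^ 3 = (3 * c) ^ 3 := by ring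
    rw [this, hc, one_pow]
  have hd1 : 19683 * d = 1 := by
    have h1 : (19683 : A) * c ^ 9 = 1 := by
      have : (19683 : A) * c ^ 9 = (3 * c) ^ 9 := by ring
      rw [this, hc, one_pow]
    have := congrArg (algebraMap A O) h1
    rwa [map_mul, map_ofNat, map_one] at this
  have hdm : ∀ s : Set O, d ∈ Algebra.adjoin A s := fun s => Subalgebra.algebraMap_mem _ _
  have hjm : j' ∈ Algebra.adjoin A {j'} := self_mem_adjoin j'
  -- `t y = 1 - 27 y`, `(t + 243) y = 1 + 216 y`
  have hty : t * y = 1 - 27 * y := by linear_combination hy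
  have hty' : (t + 243) * y = 1 + 216 * y := by linear_combination hy
  -- `j' (1 + 216 y)³ = y (1 - 27 y)³`
  have hkey : j' * (1 + 216 * y) ^ 3 = y * (1 - 27 * y) ^ 3 := by
    have e1 : j * (y * (1 - 27 * y) ^ 3) = (1 + 216 * y) ^ 3 := by
      rw [← hty, ← hty']
      calc j * (y * (t * y) ^ 3) = (j * t ^ 3) * y ^ 4 := by ring
        _ = ((t + 27) * y) * ((t + 243) * y) ^ 3 := by rw [hrel]; ring
        _ = _ := by rw [hy, one_mul]
    calc j' * (1 + 216 * y) ^ 3 = j' * (j * (y * (1 - 27 * y) ^ 3)) := by rw [e1]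
      _ = (j * j') * (y * (1 - 27 * y) ^ 3) := by ring
      _ = _ := by rw [hj, one_mul]
  -- `CNorm ρ y` by the two-chart cover
  have hNy : CNorm ρ y := by
    have e1 : (1 - 27 * y) * (1 + algebraMap A O 27 * t') = 1 := by
      rw [map_ofNat, ← hty]
      calc t * y * (1 + 27 * t') = t * y + 27 * y * (t * t') := by ring
        _ = (t + 27) * y := by rw [ht]; ring
        _ = 1 := hy
    refine CNorm.of_cover (s := y) (s' := t + 27) (e := 1 - 27 * y)
      (e' := 1 + algebraMap A O 27 * t') (27 : A) (c ^ 3) hc3 ?_ e1 ?_ (h.add_ofNat 27)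
      (h'.one_add_mul (27 : A) (c ^ 3) hc3)
    · rw [mul_comm]; exact hy
    · rw [Algebra.smul_def, map_ofNat]; ring
  refine hNy.of_isIntegral ?_ ?_
  · -- `y` is integral over `A[j']`
    refine isIntegral_of_quartic (a := -(d * (2187 - 10077696 * j')))
      (b := d * (81 + 139968 * j')) (c := -(d * (1 - 648 * j'))) (d := d * j') _
      (Subalgebra.neg_mem _ (Subalgebra.mul_mem _ (hdm _) (Subalgebra.sub_mem _
        (ofNat_mem_adjoin _ _) (Subalgebra.mul_mem _ (ofNat_mem_adjoin _ _) hjm))))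
      (Subalgebra.mul_mem _ (hdm _) (Subalgebra.add_mem _
        (ofNat_mem_adjoin _ _) (Subalgebra.mul_mem _ (ofNat_mem_adjoin _ _) hjm)))
      (Subalgebra.neg_mem _ (Subalgebra.mul_mem _ (hdm _) (Subalgebra.sub_mem _
        (Subalgebra.one_mem _) (Subalgebra.mul_mem _ (ofNat_mem_adjoin _ _) hjm))))
      (Subalgebra.mul_mem _ (hdm _) hjm) ?_
    linear_combination d * hkey + (-(y ^ 4)) * hd1
  · -- `ρ j' ∈ A[ρ y]`
    refine isIntegral_of_mem _ ?_
    have h216 : (216 : K) = 0 := by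
      have : (216 : K) = 2 * 108 := by norm_num
      rw [this, h2, zero_mul]
    have e : ρ j' = ρ y * (1 - 27 * ρ y) ^ 3 := by
      have := congrArg ρ hkey
      rw [map_mul, map_pow, map_add, map_one, map_mul, map_ofNat, h216, zero_mul, add_zero,
        one_pow, mul_one, map_mul, map_pow, map_sub, map_one, map_mul, map_ofNat] at this
      exact this
    rw [e]
    exact Subalgebra.mul_mem _ (self_mem_adjoin _) (Subalgebra.pow_mem _
      (Subalgebra.sub_mem _ (Subalgebra.one_mem _)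
        (Subalgebra.mul_mem _ (ofNat_mem_adjoin _ _) (self_mem_adjoin _))) _)

end T3

/-! ## Summary theorems -/

/-- **Chart change for `ℓ = 3`**: normality in the two charts of `t₂` implies normality in the two
charts of `j`. -/
theorem norm_j_and_jinv_of_t2 {c : A} {j j' t t' s : O} (hc : 2 * c = 1) (hj : j * j' = 1)
    (ht : t * t' = 1) (hs : (t + 256) * s = 1) (hrel : j * t ^ 2 = (t + 256) ^ 3)
    (h : CNorm ρ t) (h' : CNorm ρ t') : CNorm ρ j ∧ CNorm ρ j' :=
  ⟨norm_j_of_t2 hc ht hrel h, norm_jinv_of_t2 hc hj ht hs hrel h h'⟩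

/-- **Chart change for `ℓ = 2`**: normality in the two charts of `t₃` implies normality in the two
charts of `j`. -/
theorem norm_j_and_jinv_of_t3 {c : A} {j j' t t' y : O} (hc : 3 * c = 1) (h2 : (2 : K) = 0)
    (hj : j * j' = 1) (ht : t * t' = 1) (hy : (t + 27) * y = 1)
    (hrel : j * t ^ 3 = (t + 27) * (t + 243) ^ 3)
    (h : CNorm ρ t) (h' : CNorm ρ t') : CNorm ρ j ∧ CNorm ρ j' :=
  ⟨norm_j_of_t3 hc ht hrel h, norm_jinv_of_t3 hc h2 hj ht hy hrel h h'⟩

end Fermat.Agent.S37.H999.CC
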