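import Fermat.Agent.S37.H999.ChartChange

/-!
# S37 / RIM-NORMAL — chart change, the `CNorm` calculus (helper999), Mathlib-only

See `ChartChange.lean` for the setting.  `CNorm ρ u` : every `z : K` integral over `A[ρ u]` is the
reduction of some `b : O` integral over `A[u]`.
-/

set_option autoImplicit false

namespace Fermat.Agent.S37.H999.CC

open Polynomial

variable {A O K : Type*} [CommRing A] [CommRing O] [CommRing K] [Algebra A O] [Algebra A K]

/-- `CNorm ρ u` : the reduction of the chart of `u` (elements of `O` integral over `A[u]`) contains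
the normalisation of the reduced chart (elements of `K` integral over `A[ρ u]`). -/
def CNorm (ρ : O →ₐ[A] K) (u : O) : Prop :=
  ∀ z : K, IsIntegral (Algebra.adjoin A {ρ u}) z →
    ∃ b : O, IsIntegral (Algebra.adjoin A {u}) b ∧ ρ b = z

variable {ρ : O →ₐ[A] K}

/-- the image of `A[u]` under `ρ` lies in `A[ρ u]` -/
theorem map_mem_adjoin_singleton (ρ : O →ₐ[A] K) {u x : O} (hx : x ∈ Algebra.adjoin A {u}) :
    ρ x ∈ Algebra.adjoin A {ρ u} := by
  have h : ρ x ∈ (Algebra.adjoin A {u}).map ρ := Subalgebra.mem_map.mpr ⟨x, hx, rfl⟩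
  rw [AlgHom.map_adjoin, Set.image_singleton] at h
  exact h

/-- the image of `A[u, v]` under `ρ` lies in `A[ρ u, ρ v]` -/
theorem map_mem_adjoin_pair (ρ : O →ₐ[A] K) {u v x : O} (hx : x ∈ Algebra.adjoin A {u, v}) :
    ρ x ∈ Algebra.adjoin A {ρ u, ρ v} := by
  have h : ρ x ∈ (Algebra.adjoin A {u, v}).map ρ := Subalgebra.mem_map.mpr ⟨x, hx, rfl⟩
  rw [AlgHom.map_adjoin, Set.image_pair] at h
  exact h

/-- **Monotonicity.**  If `v` is integral over `A[u]` and `ρ u` is integral over `A[ρ v]`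
(e.g. `ρ u ∈ A[ρ v]`), then `CNorm ρ v` implies `CNorm ρ u`. -/
theorem CNorm.of_isIntegral {u v : O} (hv : IsIntegral (Algebra.adjoin A {u}) v)
    (hu : IsIntegral (Algebra.adjoin A {ρ v}) (ρ u)) (h : CNorm ρ v) : CNorm ρ u := by
  intro z hz
  obtain ⟨b, hb, hbz⟩ := h z (isIntegral_trans_adjoin _ hu hz)
  exact ⟨b, isIntegral_trans_adjoin _ hv hb, hbz⟩

/-- `CNorm` only depends on the subalgebras `A[u]` and `A[ρ u]`. -/
theorem CNorm.of_mem_adjoin {u v : O} (hv : v ∈ Algebra.adjoin A {u})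
    (hu : u ∈ Algebra.adjoin A {v}) (h : CNorm ρ v) : CNorm ρ u :=
  h.of_isIntegral (isIntegral_of_mem _ hv) (isIntegral_of_mem _ (map_mem_adjoin_singleton ρ hu))

/-- **Localisation.**  If `t * t' = 1`, `t` and `t'` are integral over `A[x]` and `x ∈ A[t, t']`
(the chart of `x` is the open subset `t ≠ 0` of the chart of `t`), then `CNorm ρ t` implies
`CNorm ρ x`. -/
theorem CNorm.of_localization {x t t' : O} (htt : t * t' = 1)
    (ht : IsIntegral (Algebra.adjoin A {x}) t) (ht' : IsIntegral (Algebra.adjoin A {x}) t')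
    (hx : x ∈ Algebra.adjoin A {t, t'}) (h : CNorm ρ t) : CNorm ρ x := by
  intro z hz
  have hρ : ρ t * ρ t' = 1 := by rw [← map_mul, htt, map_one]
  -- `z` is integral over `A[ρ t, ρ t']`
  have hz' : IsIntegral (Algebra.adjoin A {ρ t, ρ t'}) z :=
    isIntegral_trans_adjoin _ (isIntegral_of_mem _ (map_mem_adjoin_pair ρ hx)) hz
  obtain ⟨n, hn⟩ := exists_pow_mul_isIntegral (A := A) hρ hz'
  obtain ⟨b, hb, hbz⟩ := h _ (hn n le_rfl)
  refine ⟨t' ^ n * b, ?_, ?_⟩
  · exact (ht'.pow n).mul (isIntegral_trans_adjoin _ ht hb)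
  · rw [map_mul, map_pow, hbz, ← mul_assoc, ← mul_pow, mul_comm (ρ t'), hρ, one_pow, one_mul]

/-- a partition of unity in `A[s]` subordinate to high powers of `s` and `e = 1 - a s` -/
theorem exists_partition {s e : O} (a : A) (hse : a • s + e = 1) (p q : ℕ) :
    ∃ α β : O, α ∈ Algebra.adjoin A {s} ∧ β ∈ Algebra.adjoin A {s} ∧
      α * s ^ p + β * e ^ q = 1 := by
  have hs : s ∈ Algebra.adjoin A {s} := Algebra.subset_adjoin (Set.mem_singleton s)
  have he : e ∈ Algebra.adjoin A {s} := by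
    have : e = 1 - a • s := by rw [← hse]; ring
    rw [this]
    exact Subalgebra.sub_mem _ (Subalgebra.one_mem _) (Subalgebra.smul_mem _ hs a)
  let S := Algebra.adjoin A {s}
  have hcop : IsCoprime (⟨s, hs⟩ : S) ⟨e, he⟩ := by
    refine ⟨algebraMap A S a, 1, ?_⟩
    apply Subtype.ext
    simp only [one_mul, Subalgebra.coe_add, Subalgebra.coe_mul, Subalgebra.coe_algebraMap,
      Subalgebra.coe_one]
    rw [← Algebra.smul_def]
    exact hse
  obtain ⟨α, β, hαβ⟩ := (hcop.pow (m := p) (n := q))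
  refine ⟨α, β, α.2, β.2, ?_⟩
  have := congrArg (Subtype.val) hαβ
  simpa using this

/-- **Two-chart cover.**  Let `s, e ∈ O` be units with inverses `s', e'` and `a • s + e = 1` with
`a ∈ A` a unit.  (The chart of `s` is covered by the opens `s ≠ 0` and `e ≠ 0`, which are the
charts of `s'` and `e'` with one point removed.)  Then `CNorm ρ s'` and `CNorm ρ e'` imply
`CNorm ρ s`. -/
theorem CNorm.of_cover {s s' e e' : O} (a a' : A) (haa : a * a' = 1) (hss : s * s' = 1)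
    (hee : e * e' = 1) (hse : a • s + e = 1) (h₁ : CNorm ρ s') (h₂ : CNorm ρ e') : CNorm ρ s := by
  intro z hz
  have hρs : ρ s' * ρ s = 1 := by rw [← map_mul, mul_comm, hss, map_one]
  have hρe : ρ e' * ρ e = 1 := by rw [← map_mul, mul_comm, hee, map_one]
  have hρse : a • ρ s + ρ e = 1 := by rw [← map_smul, ← map_add, hse, map_one]
  -- `A[ρ s] = A[ρ e]`
  have hs_e : ρ s ∈ Algebra.adjoin A {ρ e} := by
    have : ρ s = a' • (1 - ρ e) := by
      rw [← hρse, add_sub_cancel_right, smul_smul, mul_comm, haa, one_smul]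
    rw [this]
    exact Subalgebra.smul_mem _ (Subalgebra.sub_mem _ (Subalgebra.one_mem _)
      (Algebra.subset_adjoin (Set.mem_singleton _))) a'
  have hz_e : IsIntegral (Algebra.adjoin A {ρ e}) z :=
    isIntegral_trans_adjoin _ (isIntegral_of_mem _ hs_e) hz
  -- kill the poles of `z` on both charts
  have le₁ : Algebra.adjoin A {ρ s} ≤ Algebra.adjoin A {ρ s', ρ s} :=
    Algebra.adjoin_mono (by intro x hx; rw [Set.mem_singleton_iff] at hx; rw [hx]; simp)
  have le₂ : Algebra.adjoin A {ρ e} ≤ Algebra.adjoin A {ρ e', ρ e} :=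
    Algebra.adjoin_mono (by intro x hx; rw [Set.mem_singleton_iff] at hx; rw [hx]; simp)
  obtain ⟨n₁, hn₁⟩ := exists_pow_mul_isIntegral (A := A) hρs (isIntegral_mono le₁ hz)
  obtain ⟨n₂, hn₂⟩ := exists_pow_mul_isIntegral (A := A) hρe (isIntegral_mono le₂ hz_e)
  obtain ⟨b₁, hb₁, hbz₁⟩ := h₁ _ (hn₁ n₁ le_rfl)
  obtain ⟨b₂, hb₂, hbz₂⟩ := h₂ _ (hn₂ n₂ le_rfl)
  -- kill the poles of the lifts
  have le₃ : Algebra.adjoin A {s'} ≤ Algebra.adjoin A {s, s'} :=
    Algebra.adjoin_mono (by intro x hx; rw [Set.mem_singleton_iff] at hx; rw [hx]; simp)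
  have le₄ : Algebra.adjoin A {e'} ≤ Algebra.adjoin A {e, e'} :=
    Algebra.adjoin_mono (by intro x hx; rw [Set.mem_singleton_iff] at hx; rw [hx]; simp)
  obtain ⟨m₁, hm₁⟩ := exists_pow_mul_isIntegral (A := A) hss (isIntegral_mono le₃ hb₁)
  obtain ⟨m₂, hm₂⟩ := exists_pow_mul_isIntegral (A := A) hee (isIntegral_mono le₄ hb₂)
  -- `e ∈ A[s]`
  have he_s : e ∈ Algebra.adjoin A {s} := by
    have : e = 1 - a • s := by rw [← hse]; ring
    rw [this]
    exact Subalgebra.sub_mem _ (Subalgebra.one_mem _)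
      (Subalgebra.smul_mem _ (Algebra.subset_adjoin (Set.mem_singleton s)) a)
  obtain ⟨α, β, hα, hβ, hαβ⟩ := exists_partition (A := A) a hse m₁ m₂
  refine ⟨α * (s ^ (m₁ + n₁) * b₁) + β * (e ^ (m₂ + n₂) * b₂), ?_, ?_⟩
  · refine IsIntegral.add ((isIntegral_of_mem _ hα).mul (hm₁ _ (Nat.le_add_right _ _))) ?_
    refine (isIntegral_of_mem _ hβ).mul ?_
    exact isIntegral_trans_adjoin _ (isIntegral_of_mem _ he_s) (hm₂ _ (Nat.le_add_right _ _))
  · have e₁ : ρ s ^ (m₁ + n₁) * ρ b₁ = ρ s ^ m₁ * z := by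
      rw [hbz₁, pow_add, mul_assoc, ← mul_assoc (ρ s ^ n₁), ← mul_pow, mul_comm (ρ s), hρs,
        one_pow, one_mul]
    have e₂ : ρ e ^ (m₂ + n₂) * ρ b₂ = ρ e ^ m₂ * z := by
      rw [hbz₂, pow_add, mul_assoc, ← mul_assoc (ρ e ^ n₂), ← mul_pow, mul_comm (ρ e), hρe,
        one_pow, one_mul]
    have e₃ : ρ α * ρ s ^ m₁ + ρ β * ρ e ^ m₂ = 1 := by
      rw [← map_pow, ← map_pow, ← map_mul, ← map_mul, ← map_add, hαβ, map_one]
    rw [map_add, map_mul, map_mul, map_mul, map_mul, map_pow, map_pow, e₁, e₂]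
    calc ρ α * (ρ s ^ m₁ * z) + ρ β * (ρ e ^ m₂ * z)
        = (ρ α * ρ s ^ m₁ + ρ β * ρ e ^ m₂) * z := by ring
      _ = z := by rw [e₃, one_mul]

end Fermat.Agent.S37.H999.CC
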