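import Fermat.Agent.S37.H999.ChartChangeBridge

/-!
# S37 / A2 — chart change in the "`V` mod `w`" form (helper999), Mathlib-only

`F` a field, `V` a valuation subring, `φ : R →+* F` constants with values in `V`, `w ∈ V`, `w ≠ 0`.

`NormalAt φ V w y` : for `f ∈ V`, if `f` is a root mod `w V` of a monic polynomial with
coefficients integral over `R[y]`, then `f ≡ b mod w V` for some `b` integral over `R[y]`.
This is VERBATIM the field `normal` of `A2.Mod.GoodRedAt` (with `φ = algebraMap ∘ subtype`,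
`w = cE w`), i.e. normality of the special fibre of the chart of `y`.

* `normalAt_iff_cnorm` : `NormalAt` is `CNorm` for `O = V`, `K = V / w V`;
* `normalAt_j_and_jinv_of_t2` (residue characteristic `≠ 2`, `j t² = (t + 256)³`),
  `normalAt_j_and_jinv_of_t3` (residue characteristic `2`, `j t³ = (t + 27)(t + 243)³`):
  `NormalAt t → NormalAt t⁻¹ → NormalAt j ∧ NormalAt j⁻¹`.
-/

set_option autoImplicit false
set_option linter.style.haveILetI false

namespace Fermat.Agent.S37.H999.CC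

open Polynomial

section V

variable {R F : Type*} [CommRing R] [Field F]

/-- normality of the special fibre in the chart of `y`, "`V` mod `w`" form -/
def NormalAt (φ : R →+* F) (V : ValuationSubring F) (w : F) (y : F) : Prop :=
  ∀ f ∈ V, (∃ (n : ℕ) (c : Fin n → F), (∀ i, IntOver φ y (c i)) ∧
      (f ^ n + ∑ i : Fin n, c i * f ^ (i : ℕ)) * w⁻¹ ∈ V) →
    ∃ b, IntOver φ y b ∧ (f - b) * w⁻¹ ∈ V

/-- elements of `F` integral over `V` lie in `V` -/
theorem mem_of_isIntegral_valuationSubring (V : ValuationSubring F) {x : F}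
    (hx : IsIntegral V x) : x ∈ V := by
  obtain ⟨y, rfl⟩ := IsIntegrallyClosed.isIntegral_iff.mp hx
  exact y.2

variable {O : Type*} [CommRing O] [Algebra R O]

/-- the subalgebra generated by a family of elements integral over `S` is integral over `S` -/
theorem isIntegral_of_mem_adjoin_range {A B : Type*} [CommRing A] [CommRing B] [Algebra A B]
    (S : Subalgebra A B) {ι' : Type*} (c : ι' → B) (hc : ∀ i, IsIntegral S (c i)) {x : B}
    (hx : x ∈ Algebra.adjoin A (Set.range c)) : IsIntegral S x := by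
  induction hx using Algebra.adjoin_induction with
  | mem y hy =>
    obtain ⟨i, rfl⟩ := hy
    exact hc i
  | algebraMap r =>
    exact isIntegral_of_mem S (Subalgebra.algebraMap_mem S r)
  | add x y _ _ hx hy => exact hx.add hy
  | mul x y _ _ hx hy => exact hx.mul hy

section Iff

variable (φ : R →+* F) (V : ValuationSubring F) (ι : O →+* F) (hinj : Function.Injective ι)
  (hι : ∀ r, ι (algebraMap R O r) = φ r) (hV : ∀ x : F, x ∈ V ↔ ∃ o : O, ι o = x) (wO : O)
  (hw0 : ι wO ≠ 0)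

include hinj hV hw0 in
/-- the kernel of `O → O / w O` in terms of `V` -/
theorem mk_eq_zero_iff (o : O) :
    Ideal.Quotient.mk (Ideal.span {wO}) o = 0 ↔ ι o * (ι wO)⁻¹ ∈ V := by
  rw [Ideal.Quotient.eq_zero_iff_mem, Ideal.mem_span_singleton']
  constructor
  · rintro ⟨v, rfl⟩
    rw [map_mul, mul_assoc, mul_inv_cancel₀ hw0, mul_one]
    exact (hV _).mpr ⟨v, rfl⟩
  · intro h
    obtain ⟨v, hv⟩ := (hV _).mp h
    refine ⟨v, hinj ?_⟩
    rw [map_mul, hv, mul_assoc, inv_mul_cancel₀ hw0, mul_one]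

include hι hV in
/-- elements integral over `R[y]`, `y ∈ V`, lie in `V` -/
theorem exists_of_intOver (y : O) {c : F} (hc : IntOver φ (ι y) c) : ∃ o : O, ι o = c := by
  rw [← hV]
  apply mem_of_isIntegral_valuationSubring
  -- the evaluation factors through `V`
  have hmem : ∀ p : R[X], Polynomial.eval₂RingHom φ (ι y) p ∈ V.toSubring := by
    intro p
    rw [← comp_aeval_eq φ ι hι y]
    exact (hV _).mpr ⟨_, rfl⟩
  have hcomp : (algebraMap V F).comp
      ((Polynomial.eval₂RingHom φ (ι y)).codRestrict V.toSubring hmem) =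
      Polynomial.eval₂RingHom φ (ι y) := by
    ext <;> rfl
  have hc' : (Polynomial.eval₂RingHom φ (ι y)).IsIntegralElem c := hc
  rw [← hcomp] at hc'
  exact RingHom.IsIntegralElem.of_comp hc'

include hinj hι hV hw0 in
/-- **`NormalAt` is `CNorm` for `O = V`, `K = V / w V`.** -/
theorem normalAt_iff_cnorm (y : O) :
    NormalAt φ V (ι wO) (ι y) ↔ CNorm (Ideal.Quotient.mkₐ R (Ideal.span {wO})) y := by
  set I : Ideal O := Ideal.span {wO} with hI
  set ρ : O →ₐ[R] O ⧸ I := Ideal.Quotient.mkₐ R I with hρ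
  have hρmk : ∀ o : O, ρ o = Ideal.Quotient.mk I o := fun _ => rfl
  have hker : ∀ o : O, ρ o = 0 ↔ ι o * (ι wO)⁻¹ ∈ V := fun o =>
    mk_eq_zero_iff V ι hinj hV wO hw0 o
  have hbr : ∀ b : O, IsIntegral (Algebra.adjoin R {y}) b ↔ IntOver φ (ι y) (ι b) := fun b =>
    isIntegral_adjoin_iff_intOver φ ι hinj hι y b
  constructor
  · -- `NormalAt → CNorm`
    intro hN z hz
    obtain ⟨f, rfl⟩ := Ideal.Quotient.mk_surjective z
    rw [isIntegral_subalgebra_iff] at hz
    obtain ⟨q, hq, hcoeff, hqz⟩ := hz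
    have hlift : ∀ i : ℕ, ∃ a : O, a ∈ Algebra.adjoin R {y} ∧ ρ a = q.coeff i := by
      intro i
      have h := hcoeff i
      have e : Algebra.adjoin R {ρ y} = (Algebra.adjoin R {y}).map ρ := by
        rw [AlgHom.map_adjoin, Set.image_singleton]
      rw [e] at h
      obtain ⟨a, ha, hai⟩ := h
      exact ⟨a, ha, hai⟩
    choose a ha hρa using hlift
    set n := q.natDegree with hn
    have hsum : ρ (f ^ n + ∑ i : Fin n, a i * f ^ (i : ℕ)) = 0 := by
      rw [map_add, map_pow, map_sum]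
      have e1 : ∀ i : Fin n, ρ (a i * f ^ (i : ℕ)) = q.coeff i * (ρ f) ^ (i : ℕ) := by
        intro i
        rw [map_mul, map_pow, hρa]
      rw [Finset.sum_congr rfl (fun i _ => e1 i)]
      have e2 := hqz
      rw [hq.as_sum] at e2
      simp only [Polynomial.eval_add, Polynomial.eval_pow, Polynomial.eval_X,
        Polynomial.eval_finsetSum, Polynomial.eval_mul, Polynomial.eval_C] at e2
      rw [← hn, Finset.sum_range (fun i => q.coeff i * (Ideal.Quotient.mk I f) ^ i)] at e2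
      exact e2
    obtain ⟨b, hb, hfb⟩ := hN (ι f) ((hV _).mpr ⟨f, rfl⟩)
      ⟨n, fun i => ι (a i), fun i => (hbr _).mp (isIntegral_of_mem _ (ha i)), by
        have := (hker _).mp hsum
        rwa [map_add, map_pow, map_sum, Finset.sum_congr rfl (fun i _ => by
          rw [map_mul, map_pow])] at this⟩
    obtain ⟨bO, rfl⟩ := exists_of_intOver φ V ι hι hV y hb
    refine ⟨bO, (hbr _).mpr hb, ?_⟩
    have : ρ (f - bO) = 0 := (hker _).mpr (by rwa [map_sub])
    rw [map_sub, sub_eq_zero] at this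
    exact this.symm
  · -- `CNorm → NormalAt`
    intro hC f hf hyp
    obtain ⟨n, c, hc, hin⟩ := hyp
    obtain ⟨fO, rfl⟩ := (hV _).mp hf
    have hcO : ∀ i, ∃ o : O, ι o = c i := fun i => exists_of_intOver φ V ι hι hV y (hc i)
    choose cO hcO using hcO
    have hcint : ∀ i, IsIntegral (Algebra.adjoin R {y}) (cO i) := fun i =>
      (hbr _).mpr (by rw [hcO]; exact hc i)
    -- the reductions of the coefficients are integral over `R[ρ y]`
    have hρint : ∀ i, IsIntegral (Algebra.adjoin R {ρ y}) (ρ (cO i)) := by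
      intro i
      have h := hcint i
      rw [isIntegral_subalgebra_iff] at h ⊢
      obtain ⟨q, hq, hcoeff, hq0⟩ := h
      refine ⟨q.map (ρ : O →+* O ⧸ I), hq.map _, fun k => ?_, ?_⟩
      · rw [Polynomial.coeff_map]
        exact map_mem_adjoin_singleton ρ (hcoeff k)
      · rw [Polynomial.eval_map]
        have h1 := Polynomial.eval₂_at_apply (p := q) (ρ : O →+* O ⧸ I) (cO i)
        rw [RingHom.coe_coe] at h1
        rw [h1, hq0, map_zero]
    -- `ρ f` is integral over the algebra generated by the reduced coefficients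
    have hzero : ρ (fO ^ n + ∑ i : Fin n, cO i * fO ^ (i : ℕ)) = 0 := by
      apply (hker _).mpr
      rw [map_add, map_pow, map_sum, Finset.sum_congr rfl (fun i _ => by
        rw [map_mul, map_pow, hcO])]
      exact hin
    have hz1 : IsIntegral (Algebra.adjoin R (Set.range fun i => ρ (cO i))) (ρ fO) := by
      rw [isIntegral_subalgebra_iff]
      refine ⟨X ^ n + ∑ i : Fin n, C (ρ (cO i)) * X ^ (i : ℕ), ?_, fun k => ?_, ?_⟩
      · apply Polynomial.monic_X_pow_add
        exact Polynomial.degree_sum_fin_lt _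
      · rw [Polynomial.coeff_add, Polynomial.finsetSum_coeff]
        refine Subalgebra.add_mem _ ?_ (Subalgebra.sum_mem _ fun i _ => ?_)
        · rw [Polynomial.coeff_X_pow]
          split_ifs
          · exact Subalgebra.one_mem _
          · exact Subalgebra.zero_mem _
        · rw [Polynomial.coeff_C_mul, Polynomial.coeff_X_pow]
          split_ifs
          · rw [mul_one]
            exact Algebra.subset_adjoin ⟨i, rfl⟩
          · rw [mul_zero]
            exact Subalgebra.zero_mem _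
      · simp only [Polynomial.eval_add, Polynomial.eval_pow, Polynomial.eval_X,
          Polynomial.eval_finsetSum, Polynomial.eval_mul, Polynomial.eval_C]
        rw [map_add, map_pow, map_sum] at hzero
        simp only [map_mul, map_pow] at hzero
        exact hzero
    have hz : IsIntegral (Algebra.adjoin R {ρ y}) (ρ fO) :=
      isIntegral_of_forall_isIntegral _ _
        (fun x hx => isIntegral_of_mem_adjoin_range _ _ hρint hx) hz1
    obtain ⟨b, hb, hbf⟩ := hC _ hz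
    refine ⟨ι b, (hbr _).mp hb, ?_⟩
    have : ρ (fO - b) = 0 := by rw [map_sub, hbf, sub_self]
    have := (hker _).mp this
    rwa [map_sub] at this

end Iff

section Final

variable (φ : R →+* F) (V : ValuationSubring F)

/-- the constants, as a ring homomorphism into `V` -/
def toV (hφ : ∀ r, φ r ∈ V) : R →+* V where
  toFun r := ⟨φ r, hφ r⟩
  map_one' := Subtype.ext (map_one φ)
  map_mul' a b := Subtype.ext (map_mul φ a b)
  map_zero' := Subtype.ext (map_zero φ)
  map_add' a b := Subtype.ext (map_add φ a b)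

variable {φ V}

/-- `NormalAt` is `CNorm` for `O = V` with the algebra structure `toV`. -/
theorem normalAt_iff_cnorm_V (hφ : ∀ r, φ r ∈ V) {w : F} (hwV : w ∈ V) (hw0 : w ≠ 0) (y : V) :
    letI : Algebra R V := (toV φ V hφ).toAlgebra
    NormalAt φ V w (y : F) ↔
      CNorm (Ideal.Quotient.mkₐ R (Ideal.span {(⟨w, hwV⟩ : V)})) y := by
  letI : Algebra R V := (toV φ V hφ).toAlgebra
  exact normalAt_iff_cnorm φ V V.subtype Subtype.val_injective (fun _ => rfl)
    (fun x => ⟨fun h => ⟨⟨x, h⟩, rfl⟩, fun ⟨o, ho⟩ => ho ▸ o.2⟩) ⟨w, hwV⟩ hw0 y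

/-- **Chart change, residue characteristic `≠ 2`** (`t = t₂`), "`V` mod `w`" form. -/
theorem normalAt_j_and_jinv_of_t2 (hφ : ∀ r, φ r ∈ V) {w : F} (hwV : w ∈ V) (hw0 : w ≠ 0)
    {c : R} (hc : 2 * c = 1)
    {j t : F} (hj : j ∈ V) (hj' : j⁻¹ ∈ V) (ht : t ∈ V) (ht' : t⁻¹ ∈ V)
    (hs : (t + 256)⁻¹ ∈ V) (hj0 : j ≠ 0) (ht0 : t ≠ 0)
    (hrel : j * t ^ 2 = (t + 256) ^ 3)
    (h : NormalAt φ V w t) (h' : NormalAt φ V w t⁻¹) :
    NormalAt φ V w j ∧ NormalAt φ V w j⁻¹ := by
  letI : Algebra R V := (toV φ V hφ).toAlgebra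
  have hs0 : t + 256 ≠ 0 := by
    intro h0
    rw [h0] at hrel
    have : j * t ^ 2 = 0 := by rw [hrel]; ring
    rcases mul_eq_zero.mp this with h1 | h1
    · exact hj0 h1
    · exact ht0 (pow_eq_zero_iff (two_ne_zero) |>.mp h1)
  have key := fun y : V => normalAt_iff_cnorm_V (φ := φ) hφ hwV hw0 y
  have e1 : (⟨j, hj⟩ : V) * ⟨j⁻¹, hj'⟩ = 1 := Subtype.ext (mul_inv_cancel₀ hj0)
  have e2 : (⟨t, ht⟩ : V) * ⟨t⁻¹, ht'⟩ = 1 := Subtype.ext (mul_inv_cancel₀ ht0)
  have e3 : ((⟨t, ht⟩ : V) + 256) * ⟨(t + 256)⁻¹, hs⟩ = 1 := by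
    apply Subtype.ext
    push_cast
    exact mul_inv_cancel₀ hs0
  have e4 : (⟨j, hj⟩ : V) * ⟨t, ht⟩ ^ 2 = (⟨t, ht⟩ + 256) ^ 3 := by
    apply Subtype.ext
    push_cast
    exact hrel
  have := norm_j_and_jinv_of_t2 (ρ := Ideal.Quotient.mkₐ R (Ideal.span {(⟨w, hwV⟩ : V)}))
    hc e1 e2 e3 e4 ((key ⟨t, ht⟩).mp h) ((key ⟨t⁻¹, ht'⟩).mp h')
  exact ⟨(key ⟨j, hj⟩).mpr this.1, (key ⟨j⁻¹, hj'⟩).mpr this.2⟩

/-- **Chart change, residue characteristic `2`** (`t = t₃`), "`V` mod `w`" form. -/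
theorem normalAt_j_and_jinv_of_t3 (hφ : ∀ r, φ r ∈ V) {w : F} (hwV : w ∈ V) (hw0 : w ≠ 0)
    {c : R} (hc : 3 * c = 1)
    (h2 : (2 : F) * w⁻¹ ∈ V)
    {j t : F} (hj : j ∈ V) (hj' : j⁻¹ ∈ V) (ht : t ∈ V) (ht' : t⁻¹ ∈ V)
    (hs : (t + 27)⁻¹ ∈ V) (hj0 : j ≠ 0) (ht0 : t ≠ 0)
    (hrel : j * t ^ 3 = (t + 27) * (t + 243) ^ 3)
    (h : NormalAt φ V w t) (h' : NormalAt φ V w t⁻¹) :
    NormalAt φ V w j ∧ NormalAt φ V w j⁻¹ := by
  letI : Algebra R V := (toV φ V hφ).toAlgebra
  have hs0 : t + 27 ≠ 0 := by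
    intro h0
    rw [h0, zero_mul] at hrel
    rcases mul_eq_zero.mp hrel with h1 | h1
    · exact hj0 h1
    · exact ht0 (pow_eq_zero_iff (three_ne_zero) |>.mp h1)
  have key := fun y : V => normalAt_iff_cnorm_V (φ := φ) hφ hwV hw0 y
  have e1 : (⟨j, hj⟩ : V) * ⟨j⁻¹, hj'⟩ = 1 := Subtype.ext (mul_inv_cancel₀ hj0)
  have e2 : (⟨t, ht⟩ : V) * ⟨t⁻¹, ht'⟩ = 1 := Subtype.ext (mul_inv_cancel₀ ht0)
  have e3 : ((⟨t, ht⟩ : V) + 27) * ⟨(t + 27)⁻¹, hs⟩ = 1 := by
    apply Subtype.ext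
    push_cast
    exact mul_inv_cancel₀ hs0
  have e4 : (⟨j, hj⟩ : V) * ⟨t, ht⟩ ^ 3 = (⟨t, ht⟩ + 27) * (⟨t, ht⟩ + 243) ^ 3 := by
    apply Subtype.ext
    push_cast
    exact hrel
  have e5 : (2 : V ⧸ Ideal.span {(⟨w, hwV⟩ : V)}) = 0 := by
    have h3 : Ideal.Quotient.mk (Ideal.span {(⟨w, hwV⟩ : V)}) (2 : V) = 0 := by
      refine (mk_eq_zero_iff V V.subtype Subtype.val_injective
        (fun x => ⟨fun h => ⟨⟨x, h⟩, rfl⟩, fun ⟨o, ho⟩ => ho ▸ o.2⟩) ⟨w, hwV⟩ hw0 2).mpr ?_
      have : V.subtype (2 : V) = 2 := map_ofNat V.subtype 2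
      rw [this]
      exact h2
    rw [← h3, map_ofNat]
  have := norm_j_and_jinv_of_t3 (ρ := Ideal.Quotient.mkₐ R (Ideal.span {(⟨w, hwV⟩ : V)}))
    hc e5 e1 e2 e3 e4 ((key ⟨t, ht⟩).mp h) ((key ⟨t⁻¹, ht'⟩).mp h')
  exact ⟨(key ⟨j, hj⟩).mpr this.1, (key ⟨j⁻¹, hj'⟩).mpr this.2⟩

end Final

end V

end Fermat.Agent.S37.H999.CC
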